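import Fermat.Agent.S55.Spec.Datum
import Fermat.Agent.S55.E1.H603.FinLevelLoc

/-!
# S55 / A8 (CAP), leaf J2, part (B): local inflation-injectivity   (helper164)

Coefficients: `A' = (G_ℚ ⧸ U₁ → ℚ̄_qˣ)` (`U₁ = L₁.U`), with the diagonal action of the local group
`(d • a) y = d (a ((locQ q d)⁻¹ • y))`.

`LocalInfSpec S` : a 2-cochain `z` of the local group which is right-invariant under `V_L(q)`
(`L ≥ L₁` a level of `S`) and which is the coboundary of a 1-cochain `β` that is level-constant for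
SOME finite `F/ℚ` (no ramification condition), is the coboundary of a 1-cochain `β'` that is
right-invariant under `V_L(q)`.

`localInf : LocalSpec p → LocalInfSpec S`  (only Hilbert 90, i.e. part 2 of `LocalSpec`, is used).
-/

set_option autoImplicit false
set_option linter.unusedVariables false
set_option linter.unusedSectionVars false

noncomputable section

namespace Fermat.Agent.S55.Cap.J2H164

open Fermat.Agent.S55.Tow groupCohomology CategoryTheory

/-- **Interface of part (B).** -/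
def LocalInfSpec (S : Finset Nat.Primes) : Prop :=
  ∀ (q : Nat.Primes) (L₁ L : Level S), L₁ ≤ L →
  ∀ (z : GQp q × GQp q → (GQ ⧸ L₁.U) → (unitsQpbar q).V)
    (β : GQp q → (GQ ⧸ L₁.U) → (unitsQpbar q).V),
    (∀ d d' e e', e ∈ L.V q → e' ∈ L.V q → z (d * e, d' * e') = z (d, d')) →
    (∃ F : IntermediateField ℚ Qbar, FiniteDimensional ℚ F ∧
      ∀ d e, e ∈ F.fixingSubgroup.comap (locQ q) → β (d * e) = β d) →
    (∀ d d' y, (unitsQpbar q).ρ d (β d' ((locQ q d)⁻¹ • y)) - β (d * d') y + β d y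
      = z (d, d') y) →
    ∃ β' : GQp q → (GQ ⧸ L₁.U) → (unitsQpbar q).V,
      (∀ d e, e ∈ L.V q → β' (d * e) = β' d) ∧
      (∀ d d' y, (unitsQpbar q).ρ d (β' d' ((locQ q d)⁻¹ • y)) - β' (d * d') y + β' d y
        = z (d, d') y)

section H90

variable {k G : Type} [CommRing k] [Group G] (A : Rep.{0} k G)

/-- vanishing of `H¹` in elementwise form -/
lemma exists_of_isZero_H1_h164 (hz : Limits.IsZero (groupCohomology A 1))
    (f : G → A) (hf : ∀ g h : G, f (g * h) = A.ρ g (f h) + f g) :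
    ∃ y : A, ∀ g : G, A.ρ g y - y = f g := by
  have hmem : f ∈ cocycles₁ A := (mem_cocycles₁_iff f).2 hf
  have : Subsingleton (groupCohomology A 1) :=
    (ModuleCat.isZero_iff_subsingleton).1 hz
  have h0 : H1π A ⟨f, hmem⟩ = 0 := Subsingleton.elim _ _
  obtain ⟨y, hy⟩ := (H1π_eq_zero_iff _).1 h0
  refine ⟨y, fun g => ?_⟩
  have := congrFun hy g
  rw [d₀₁_hom_apply] at this
  exact this

end H90

variable {S' : Finset Nat.Primes}

lemma mem_V_of_mem_ker {L L' : Level S'} (h : L ≤ L') (q : Nat.Primes) (e : GQp q)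
    (he : (QuotientGroup.mk e : L'.Dec q) ∈ (Level.projDec h q).ker) : e ∈ L.V q := by
  rw [MonoidHom.mem_ker, Level.projDec_mk] at he
  exact (QuotientGroup.eq_one_iff e).1 he

lemma mk_mem_ker {L L' : Level S'} (h : L ≤ L') (q : Nat.Primes) (e : GQp q)
    (he : e ∈ L.V q) : (QuotientGroup.mk e : L'.Dec q) ∈ (Level.projDec h q).ker := by
  rw [MonoidHom.mem_ker, Level.projDec_mk]
  exact (QuotientGroup.eq_one_iff e).2 he

/-- **Hilbert 90 for `L'_q / L_q`, elementwise**: a 1-cocycle on `V_L(q)` which is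
right-invariant under `V_{L'}(q)` is a coboundary. -/
lemma h90_elem {p : ℕ} (hL : LocalSpec p) (L L' : Level S') (h : L ≤ L') (q : Nat.Primes)
    (f : GQp q → (unitsQpbar q).V)
    (hcoc : ∀ e ∈ L.V q, ∀ e' ∈ L.V q, f (e * e') = (unitsQpbar q).ρ e (f e') + f e)
    (hinv : ∀ e ∈ L.V q, ∀ v ∈ L'.V q, f (e * v) = f e) :
    ∃ m : (unitsQpbar q).V, ∀ e ∈ L.V q, f e = (unitsQpbar q).ρ e m - m := by
  have hVle : L'.V q ≤ L.V q := Level.V_anti h q
  -- `f 1 = 0`
  have hf1 : f 1 = 0 := by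
    have h1 := hcoc 1 (one_mem _) 1 (one_mem _)
    rw [mul_one, map_one, Module.End.one_apply] at h1
    exact left_eq_add.mp h1
  have hfv : ∀ v ∈ L'.V q, f v = 0 := by
    intro v hv
    have h1 := hinv 1 (one_mem _) v hv
    rwa [one_mul, hf1] at h1
  have hfix : ∀ e ∈ L.V q, ∀ v ∈ L'.V q, (unitsQpbar q).ρ v (f e) = f e := by
    intro e he v hv
    have h1 := hcoc v (hVle hv) e he
    rw [hfv v hv, add_zero] at h1
    have h2 : v * e = e * (e⁻¹ * v * e) := by group
    have h3 : e⁻¹ * v * e ∈ L'.V q := by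
      have := (Level.normalV L' q).conj_mem v hv e⁻¹
      rwa [inv_inv] at this
    rw [h2, hinv e he _ h3] at h1
    exact h1.symm
  -- the descended cocycle on `ker (Dec L' → Dec L)`
  have hout : ∀ k : (Level.projDec h q).ker, Quotient.out (k : L'.Dec q) ∈ L.V q := by
    intro k
    apply mem_V_of_mem_ker h q
    have : (QuotientGroup.mk (Quotient.out (k : L'.Dec q)) : L'.Dec q) = k :=
      QuotientGroup.out_eq' _
    rw [this]
    exact k.2
  have hrep : ∀ e ∈ L.V q, f (Quotient.out (QuotientGroup.mk e : L'.Dec q)) = f e := by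
    intro e he
    have h1 : (QuotientGroup.mk (Quotient.out (QuotientGroup.mk e : L'.Dec q)) : L'.Dec q)
        = QuotientGroup.mk e := QuotientGroup.out_eq' _
    have h2 : e⁻¹ * Quotient.out (QuotientGroup.mk e : L'.Dec q) ∈ L'.V q :=
      QuotientGroup.eq.1 h1.symm
    have h3 := hinv e he _ h2
    rwa [mul_inv_cancel_left] at h3
  let F : (Level.projDec h q).ker → (L'.locUnits q).V := fun k =>
    L'.locMk q (f (Quotient.out (k : L'.Dec q))) (fun v hv => hfix _ (hout k) v hv)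
  have hF : ∀ k k' : (Level.projDec h q).ker,
      F (k * k') = (T.resSub (L'.locUnits q) (Level.projDec h q).ker).ρ k (F k') + F k := by
    intro k k'
    apply L'.locCoe_injective q
    rw [map_add]
    show f (Quotient.out ((k * k' : (Level.projDec h q).ker) : L'.Dec q)) =
      L'.locCoe q ((L'.locUnits q).ρ (k : L'.Dec q) (F k')) + f (Quotient.out (k : L'.Dec q))
    have hk : (QuotientGroup.mk (Quotient.out (k : L'.Dec q)) : L'.Dec q) = k :=
      QuotientGroup.out_eq' _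
    have hk' : (QuotientGroup.mk (Quotient.out (k' : L'.Dec q)) : L'.Dec q) = k' :=
      QuotientGroup.out_eq' _
    have h1 : L'.locCoe q ((L'.locUnits q).ρ (k : L'.Dec q) (F k'))
        = (unitsQpbar q).ρ (Quotient.out (k : L'.Dec q)) (f (Quotient.out (k' : L'.Dec q))) := by
      conv_lhs => rw [← hk]
      rw [Level.locUnits_ρ_coe]
      rfl
    rw [h1, ← hcoc _ (hout k) _ (hout k')]
    have h2 : ((k * k' : (Level.projDec h q).ker) : L'.Dec q)
        = QuotientGroup.mk (Quotient.out (k : L'.Dec q) * Quotient.out (k' : L'.Dec q)) := by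
      rw [QuotientGroup.mk_mul, hk, hk']
      rfl
    rw [h2]
    exact hrep _ (mul_mem (hout k) (hout k'))
  obtain ⟨y₀, hy₀⟩ := exists_of_isZero_H1_h164
    (T.resSub (L'.locUnits q) (Level.projDec h q).ker) (hL.2.1 S' L L' h q) F hF
  refine ⟨L'.locCoe q y₀, fun e he => ?_⟩
  have h1 := hy₀ ⟨QuotientGroup.mk e, mk_mem_ker h q e he⟩
  have h2 := congrArg (L'.locCoe q) h1
  rw [map_sub] at h2
  have h3 : L'.locCoe q ((T.resSub (L'.locUnits q) (Level.projDec h q).ker).ρ
      ⟨QuotientGroup.mk e, mk_mem_ker h q e he⟩ y₀) = (unitsQpbar q).ρ e (L'.locCoe q y₀) :=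
    Level.locUnits_ρ_coe L' q e y₀
  rw [h3] at h2
  rw [h2]
  exact (hrep e he).symm

/-- elements of `U_L` act trivially on `G_ℚ ⧸ U₁` for `L₁ ≤ L` -/
lemma smul_eq_of_mem_U {S : Finset Nat.Primes} {L₁ L : Level S} (h₁ : L₁ ≤ L) {u : GQ}
    (hu : u ∈ L.U) (y : GQ ⧸ L₁.U) : u • y = y := by
  induction y using QuotientGroup.induction_on with
  | H g =>
    show ((u * g : GQ) : GQ ⧸ L₁.U) = (g : GQ ⧸ L₁.U)
    rw [eq_comm, QuotientGroup.eq]
    have h1 : u ∈ L₁.U := Level.U_anti h₁ hu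
    have h2 := (Level.instNormalU L₁).conj_mem u h1 g⁻¹
    rwa [inv_inv] at h2

/-- **Part (B) of leaf J2**: local inflation-injectivity in cochain form. -/
theorem localInf {p : ℕ} (S : Finset Nat.Primes) (hL : LocalSpec p) : LocalInfSpec S := by
  intro q L₁ L h₁ z β hz hβF hd
  obtain ⟨F, hF, hβF⟩ := hβF
  -- a level `L' ≥ L` (for some `S' ⊇ S`) carrying `β`
  have hfinL : FiniteDimensional ℚ L.F := L.unram.1
  have hfin : FiniteDimensional ℚ ↥(F ⊔ L.F) := inferInstance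
  obtain ⟨N, hN⟩ := E1.H603.exists_nLevel_ge (F ⊔ L.F) hfin
  obtain ⟨S', hS, L', hL'⟩ := E1.H603.exists_level_of_nLevel S N
  have hLL' : Level.ofLE hS L ≤ L' := by
    show L.F ≤ L'.F
    rw [hL']
    exact le_sup_right.trans hN
  have hFL' : F ≤ L'.F := by
    rw [hL']
    exact le_sup_left.trans hN
  have hβ : ∀ d, ∀ v ∈ L'.V q, β (d * v) = β d := fun d v hv =>
    hβF d v (IntermediateField.fixingSubgroup_antitone hFL' hv)
  -- `V_L(q)` acts trivially on `G_ℚ ⧸ U₁`
  have htriv : ∀ e ∈ L.V q, ∀ y : GQ ⧸ L₁.U, (locQ q e)⁻¹ • y = y := fun e he y =>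
    smul_eq_of_mem_U h₁ (inv_mem he) y
  have hsm : ∀ (d d' : GQp q) (y : GQ ⧸ L₁.U),
      (locQ q (d * d'))⁻¹ • y = (locQ q d')⁻¹ • (locQ q d)⁻¹ • y := by
    intro d d' y
    rw [map_mul, mul_inv_rev, mul_smul]
  have hone : ∀ y : GQ ⧸ L₁.U, (locQ q 1)⁻¹ • y = y := by
    intro y
    rw [map_one, inv_one, one_smul]
  -- `β 1 = z (1,1)`
  have hβ1 : ∀ y, β 1 y = z (1, 1) y := by
    intro y
    have h1 := hd 1 1 y
    rw [hone, map_one, Module.End.one_apply, mul_one] at h1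
    rw [← h1]
    abel
  -- `z (d, 1) y = d (z (1,1) (d⁻¹ y))`
  have hzd1 : ∀ d y, z (d, 1) y = (unitsQpbar q).ρ d (z (1, 1) ((locQ q d)⁻¹ • y)) := by
    intro d y
    have h1 := hd d 1 y
    rw [mul_one, hβ1] at h1
    rw [← h1]
    abel
  -- `z (1,1)` is fixed by `V_L(q)`
  have hmfix : ∀ e ∈ L.V q, ∀ y, (unitsQpbar q).ρ e (z (1, 1) y) = z (1, 1) y := by
    intro e he y
    have h1 := hzd1 e y
    rw [htriv e he] at h1
    have h2 := hz 1 1 e 1 he (one_mem _)
    rw [one_mul, mul_one] at h2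
    rw [← h1, h2]
  -- Hilbert 90 componentwise
  have key : ∀ y : GQ ⧸ L₁.U, ∃ m : (unitsQpbar q).V,
      ∀ e ∈ L.V q, β e y - z (1, 1) y = (unitsQpbar q).ρ e m - m := by
    intro y
    apply h90_elem hL (Level.ofLE hS L) L' hLL' q (fun e => β e y - z (1, 1) y)
    · intro e he e' he'
      have h1 := hd e e' y
      rw [htriv e he] at h1
      have h2 := hz 1 1 e e' he he'
      rw [one_mul, one_mul] at h2
      rw [h2] at h1
      show β (e * e') y - z (1, 1) y
        = (unitsQpbar q).ρ e (β e' y - z (1, 1) y) + (β e y - z (1, 1) y)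
      rw [map_sub, hmfix e he, ← h1]
      abel
    · intro e he v hv
      show β (e * v) y - z (1, 1) y = β e y - z (1, 1) y
      rw [hβ e v hv]
  choose μ₀ hμ₀ using key
  refine ⟨fun d y => β d y - ((unitsQpbar q).ρ d (μ₀ ((locQ q d)⁻¹ • y)) - μ₀ y), ?_, ?_⟩
  · intro d e he
    funext y
    show β (d * e) y - ((unitsQpbar q).ρ (d * e) (μ₀ ((locQ q (d * e))⁻¹ • y)) - μ₀ y)
      = β d y - ((unitsQpbar q).ρ d (μ₀ ((locQ q d)⁻¹ • y)) - μ₀ y)
    have h1 := hd d e y
    have h2 := hz d 1 1 e (one_mem _) he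
    rw [mul_one, one_mul] at h2
    rw [h2, hzd1] at h1
    have h3 := hμ₀ ((locQ q d)⁻¹ • y) e he
    have h4 : β e ((locQ q d)⁻¹ • y)
        = z (1, 1) ((locQ q d)⁻¹ • y)
          + ((unitsQpbar q).ρ e (μ₀ ((locQ q d)⁻¹ • y)) - μ₀ ((locQ q d)⁻¹ • y)) := by
      rw [← h3]
      abel
    rw [h4, map_add, map_sub] at h1
    have h5 : β (d * e) y = β d y + ((unitsQpbar q).ρ d ((unitsQpbar q).ρ e
        (μ₀ ((locQ q d)⁻¹ • y))) - (unitsQpbar q).ρ d (μ₀ ((locQ q d)⁻¹ • y))) := by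
      linear_combination (norm := abel) -h1
    rw [h5, hsm, htriv e he, map_mul, Module.End.mul_apply]
    abel
  · intro d d' y
    show (unitsQpbar q).ρ d (β d' ((locQ q d)⁻¹ • y)
          - ((unitsQpbar q).ρ d' (μ₀ ((locQ q d')⁻¹ • (locQ q d)⁻¹ • y))
            - μ₀ ((locQ q d)⁻¹ • y)))
        - (β (d * d') y - ((unitsQpbar q).ρ (d * d') (μ₀ ((locQ q (d * d'))⁻¹ • y)) - μ₀ y))
        + (β d y - ((unitsQpbar q).ρ d (μ₀ ((locQ q d)⁻¹ • y)) - μ₀ y))
      = z (d, d') y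
    rw [← hd d d' y, hsm, map_sub, map_sub, map_mul, Module.End.mul_apply]
    abel

end Fermat.Agent.S55.Cap.J2H164
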