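import Mathlib

/-!
# S55 / A8 (CAP), leaf J2, part (A): explicit Shapiro in degree 2   (helper164)

Abstract setting: `r : D → G` a group homomorphism (NOT assumed injective), `W ≤ G` a normal
subgroup, `Y` a `G`-set, `X` a `D`-module.  Cochains with values in `Y → X`, on which `D` acts
by `(d • a) y = d (a ((r d)⁻¹ • y))`.

Input:
* `ζ : G × G → Y → X`, right-`W`-invariant, satisfying the cocycle relation for triples
  `(r d, γ, g)`;
* `β : D → Y → X`, right-`r⁻¹ W`-invariant, with `d β = ζ ∘ (r × r)`.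

Output: `shT : G → Y → X` with
* `shT (r d * γ) y = d (shT γ ((r d)⁻¹ • y)) + ζ (r d, γ) y - β d y`,
* `shT (γ * w) = shT γ` for `w ∈ W`,
and `shPhi g γ y = ζ (γ, g) y - shT (γ * g) y + shT γ y`, which is `D`-equivariant in `γ`,
right-`W`-invariant in `γ` and in `g`, and has the same "coboundary" as `ζ`.

Construction: `shT (r d * σ * w) = ζ (r d, σ) - β d` for `σ` the chosen representative of the
double coset `r(D) σ W`.   Mathlib only.
-/

set_option autoImplicit false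
set_option linter.unusedVariables false
set_option linter.unusedSectionVars false

noncomputable section

namespace Fermat.Agent.S55.Cap.J2H164

section AbstractShapiro

variable {G D Y X : Type} [Group G] [Group D] [MulAction G Y] [AddCommGroup X]
  (r : D →* G) (W : Subgroup G) [hWn : W.Normal] (ρ : Representation ℤ D X)

/-- the chosen representative of the double coset `r(D) γ W` -/
def dcRep (γ : G) : G := (DoubleCoset.mk r.range W γ).out

lemma dcRep_eq (γ : G) (d : D) (w : G) (hw : w ∈ W) :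
    dcRep r W (r d * γ * w) = dcRep r W γ := by
  unfold dcRep
  have h : DoubleCoset.mk r.range W (r d * γ * w) = DoubleCoset.mk r.range W γ := by
    rw [eq_comm, DoubleCoset.eq]
    exact ⟨r d, ⟨d, rfl⟩, w, hw, rfl⟩
  rw [h]

lemma exists_dcRep (γ : G) : ∃ d : D, ∃ w ∈ W, γ = r d * dcRep r W γ * w := by
  have h : DoubleCoset.mk r.range W (dcRep r W γ) = DoubleCoset.mk r.range W γ :=
    DoubleCoset.out_eq' _ _ _
  obtain ⟨h', ⟨d, rfl⟩, w, hw, hγ⟩ := (DoubleCoset.eq _ _ _ _).1 h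
  exact ⟨d, w, hw, hγ⟩

variable (ζ : G × G → Y → X) (β : D → Y → X)

/-- the correction cochain `t` -/
def shT (γ : G) : Y → X := fun y =>
  ζ (r (Classical.choose (exists_dcRep r W γ)), dcRep r W γ) y
    - β (Classical.choose (exists_dcRep r W γ)) y

/-- the modified cochain `φ_g(γ) = ζ(γ, g) - t(γ g) + t(γ)` -/
def shPhi (g γ : G) : Y → X := fun y =>
  ζ (γ, g) y - shT r W ζ β (γ * g) y + shT r W ζ β γ y

variable (hζW : ∀ g g' w w', w ∈ W → w' ∈ W → ζ (g * w, g' * w') = ζ (g, g'))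
  (hζ : ∀ (d : D) (γ g : G) (y : Y),
    ζ (r d * γ, g) y + ζ (r d, γ) y = ρ d (ζ (γ, g) ((r d)⁻¹ • y)) + ζ (r d, γ * g) y)
  (hβW : ∀ d e, e ∈ W.comap r → β (d * e) = β d)
  (hβ : ∀ d d' y, ρ d (β d' ((r d)⁻¹ • y)) - β (d * d') y + β d y = ζ (r d, r d') y)

include hWn hζW hβW in
/-- `t` does not depend on the choice of the decomposition `γ = r d * σ * w`. -/
lemma shT_eq (γ : G) (d : D) (w : G) (hw : w ∈ W) (hγ : γ = r d * dcRep r W γ * w) (y : Y) :
    shT r W ζ β γ y = ζ (r d, dcRep r W γ) y - β d y := by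
  obtain ⟨w₀, hw₀, hγ₀⟩ := Classical.choose_spec (exists_dcRep r W γ)
  set d₀ := Classical.choose (exists_dcRep r W γ) with hd₀
  set σ := dcRep r W γ with hσ
  -- `e = d⁻¹ d₀` lies in `r⁻¹ W`
  have he : d⁻¹ * d₀ ∈ W.comap r := by
    rw [Subgroup.mem_comap, map_mul, map_inv]
    have h1 : (r d)⁻¹ * r d₀ = σ * (w * w₀⁻¹) * σ⁻¹ := by
      have h2 : r d₀ * σ * w₀ = r d * σ * w := by rw [← hγ₀, ← hγ]
      have h3 : r d₀ = r d * σ * w * w₀⁻¹ * σ⁻¹ := by
        rw [← h2]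
        group
      rw [h3]
      group
    rw [h1]
    exact hWn.conj_mem _ (mul_mem hw (inv_mem hw₀)) σ
  have h4 : d₀ = d * (d⁻¹ * d₀) := by group
  have h5 : ζ (r d₀, σ) = ζ (r d, σ) := by
    have := hζW (r d) σ (r (d⁻¹ * d₀)) 1 he (one_mem _)
    rw [mul_one, ← map_mul, ← h4] at this
    exact this
  have h6 : β d₀ = β d := by
    have := hβW d (d⁻¹ * d₀) he
    rwa [← h4] at this
  show ζ (r d₀, σ) y - β d₀ y = ζ (r d, σ) y - β d y
  rw [h5, h6]

include hWn hζW hβW in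
/-- right-`W`-invariance of `t` -/
lemma shT_mul_right (γ w : G) (hw : w ∈ W) : shT r W ζ β (γ * w) = shT r W ζ β γ := by
  funext y
  obtain ⟨d₀, w₀, hw₀, hγ₀⟩ := exists_dcRep r W γ
  have hσ : dcRep r W (γ * w) = dcRep r W γ := by
    have := dcRep_eq r W γ 1 w hw
    rwa [map_one, one_mul] at this
  have h1 : γ * w = r d₀ * dcRep r W (γ * w) * (w₀ * w) := by
    rw [hσ, ← mul_assoc, ← hγ₀]
  rw [shT_eq r W ζ β hζW hβW (γ * w) d₀ (w₀ * w) (mul_mem hw₀ hw) h1 y,
    shT_eq r W ζ β hζW hβW γ d₀ w₀ hw₀ hγ₀ y, hσ]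

include hWn hζW hζ hβW hβ in
/-- the transformation rule of `t` under left multiplication by `r d` -/
lemma shT_mul_left (d : D) (γ : G) (y : Y) :
    shT r W ζ β (r d * γ) y
      = ρ d (shT r W ζ β γ ((r d)⁻¹ • y)) + ζ (r d, γ) y - β d y := by
  obtain ⟨d₀, w₀, hw₀, hγ₀⟩ := exists_dcRep r W γ
  have hσ : dcRep r W (r d * γ) = dcRep r W γ := by
    have := dcRep_eq r W γ d 1 (one_mem _)
    rwa [mul_one] at this
  have h1 : r d * γ = r (d * d₀) * dcRep r W (r d * γ) * w₀ := by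
    calc r d * γ = r d * (r d₀ * dcRep r W γ * w₀) := by rw [← hγ₀]
      _ = r (d * d₀) * dcRep r W (r d * γ) * w₀ := by
        rw [hσ, map_mul]
        group
  rw [shT_eq r W ζ β hζW hβW (r d * γ) (d * d₀) w₀ hw₀ h1 y,
    shT_eq r W ζ β hζW hβW γ d₀ w₀ hw₀ hγ₀ ((r d)⁻¹ • y), hσ]
  set σ := dcRep r W γ with hσdef
  have h2 : ζ (r d, γ) = ζ (r d, r d₀ * σ) := by
    have := hζW (r d) (r d₀ * σ) 1 w₀ (one_mem _) hw₀
    rw [mul_one, ← hγ₀] at this
    exact this
  have h3 := hζ d (r d₀) σ y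
  have h4 := hβ d d₀ y
  rw [h2, map_sub, map_mul]
  linear_combination (norm := abel) h3 + h4

include hWn hζW hζ hβW hβ in
/-- `φ_g` is `D`-equivariant -/
lemma shPhi_mul_left (g : G) (d : D) (γ : G) (y : Y) :
    shPhi r W ζ β g (r d * γ) y = ρ d (shPhi r W ζ β g γ ((r d)⁻¹ • y)) := by
  unfold shPhi
  rw [mul_assoc, shT_mul_left r W ρ ζ β hζW hζ hβW hβ d (γ * g) y,
    shT_mul_left r W ρ ζ β hζW hζ hβW hβ d γ y, map_add, map_sub]
  have h3 := hζ d γ g y
  linear_combination (norm := abel) h3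

include hWn hζW hβW in
/-- `φ_g(γ)` is right-`W`-invariant in `γ` -/
lemma shPhi_mul_right (g γ w : G) (hw : w ∈ W) :
    shPhi r W ζ β g (γ * w) = shPhi r W ζ β g γ := by
  funext y
  unfold shPhi
  have h1 : γ * w * g = γ * g * (g⁻¹ * w * g) := by group
  have h2 : g⁻¹ * w * g ∈ W := by
    have := hWn.conj_mem w hw g⁻¹
    rwa [inv_inv] at this
  have h3 : ζ (γ * w, g) = ζ (γ, g) := by
    have := hζW γ g w 1 hw (one_mem _)
    rwa [mul_one] at this
  rw [h1, shT_mul_right r W ζ β hζW hβW (γ * g) _ h2, shT_mul_right r W ζ β hζW hβW γ w hw, h3]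

include hWn hζW hβW in
/-- `φ_g(γ)` is right-`W`-invariant in `g` -/
lemma shPhi_mul_right' (g γ w : G) (hw : w ∈ W) :
    shPhi r W ζ β (g * w) γ = shPhi r W ζ β g γ := by
  funext y
  unfold shPhi
  have h3 : ζ (γ, g * w) = ζ (γ, g) := by
    have := hζW γ g 1 w (one_mem _) hw
    rwa [mul_one] at this
  rw [← mul_assoc, shT_mul_right r W ζ β hζW hβW (γ * g) w hw, h3]

/-- the coboundary of `φ` is the "coboundary" of `ζ` -/
lemma shPhi_cobdry (g h γ : G) (y : Y) :
    shPhi r W ζ β h (γ * g) y - shPhi r W ζ β (g * h) γ y + shPhi r W ζ β g γ y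
      = ζ (γ * g, h) y - ζ (γ, g * h) y + ζ (γ, g) y := by
  unfold shPhi
  rw [mul_assoc]
  abel

end AbstractShapiro

end Fermat.Agent.S55.Cap.J2H164
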