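import Fermat.Agent.S55.Cap.Spec
import Fermat.Agent.S55.Bridge.InertiaConj
import Fermat.Agent.S55.Cap.J2H164.LocalInf
import Fermat.Agent.S55.Cap.J2H164.Shapiro

/-!
# S55 / A8 (CAP), leaf J2: `J2AdapterSpec`   (helper164)

`j2Adapter : Cap.J2AdapterSpec p S`, i.e. `LocalSpec p → J2Spec p S`.

Proof (all at cochain level):
* the level-constant cocycle `c` is right-invariant under `U_L` for a level `L ≥ L₁` of `S`;
* for `q ∈ S` the local trivialisation `β_q` of `c` (from `Ш²`) is pushed to `ℚ̄_qˣ`-coefficients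
  and replaced by one which is right-invariant under `V_L(q)` (`LocalInf`: Hilbert 90);
* explicit Shapiro (`Shapiro`): `b_q(g)(x)(γ) = φ_g(γ)(γ x)`,
  `φ_g(γ) = e c(γ, g) - t(γ g) + t(γ)`.
-/

set_option autoImplicit false
set_option linter.unusedVariables false
set_option linter.unusedSectionVars false

noncomputable section

namespace Fermat.Agent.S55.Cap.J2H164

open Fermat.Agent.S55.PT Fermat.Agent.S55.Tow groupCohomology ExtCitation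

/-! ### pointwise formulas for the diagonal actions -/

lemma indRep_ρ_apply {k G : Type} [Field k] [Group G] (U : Subgroup G) (M : Rep.{0, 0, 0} k G)
    (g : G) (F : (G ⧸ U) →₀ M) (y : G ⧸ U) :
    ((indRep U M).ρ g F : (G ⧸ U) →₀ M) y = M.ρ g (F (g⁻¹ • y)) := by
  classical
  induction F using Finsupp.induction_linear with
  | zero =>
    rw [map_zero]
    show (0 : M) = M.ρ g 0
    rw [map_zero]
  | add F F' hF hF' =>
    rw [map_add]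
    show ((indRep U M).ρ g F : (G ⧸ U) →₀ M) y + ((indRep U M).ρ g F' : (G ⧸ U) →₀ M) y
      = M.ρ g (F (g⁻¹ • y) + F' (g⁻¹ • y))
    rw [hF, hF', map_add]
  | single x m =>
    rw [indRep_ρ_single, Finsupp.single_apply, Finsupp.single_apply]
    by_cases h : g • x = y
    · have h' : x = g⁻¹ • y := by rw [← h, inv_smul_smul]
      rw [if_pos h, if_pos h']
    · have h' : ¬ x = g⁻¹ • y := fun hx => h (by rw [hx, smul_inv_smul])
      rw [if_neg h, if_neg h', map_zero]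

lemma indM_smul_apply {G X : Type} [Group G] [AddCommGroup X] [DistribMulAction G X]
    (U : Subgroup G) (g : G) (F : IndM U X) (y : G ⧸ U) :
    IndM.toF U (g • F) y = g • IndM.toF U F (g⁻¹ • y) := by
  classical
  induction F using IndM.induction_on with
  | h0 =>
    rw [smul_zero, map_zero]
    show (0 : X) = g • (0 : X)
    rw [smul_zero]
  | hadd F F' hF hF' =>
    rw [smul_add, map_add, map_add]
    show IndM.toF U (g • F) y + IndM.toF U (g • F') y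
      = g • (IndM.toF U F (g⁻¹ • y) + IndM.toF U F' (g⁻¹ • y))
    rw [hF, hF', smul_add]
  | hsingle x a =>
    rw [IndM.smul_single]
    show (Finsupp.single (g • x) (g • a) : (G ⧸ U) →₀ X) y
      = g • (Finsupp.single x a : (G ⧸ U) →₀ X) (g⁻¹ • y)
    rw [Finsupp.single_apply, Finsupp.single_apply]
    by_cases h : g • x = y
    · have h' : x = g⁻¹ • y := by rw [← h, inv_smul_smul]
      rw [if_pos h, if_pos h']
    · have h' : ¬ x = g⁻¹ • y := fun hx => h (by rw [hx, smul_inv_smul])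
      rw [if_neg h, if_neg h', smul_zero]

/-! ### a level carrying a level-constant cochain -/

lemma exists_level_of_isLC₂ (S : Finset Nat.Primes) (L₁ : Level S) {X : Type*}
    (c : Tow.GQ × Tow.GQ → X) (hc : (globalLevels S).IsLC₂ c) :
    ∃ L : Level S, L₁ ≤ L ∧
      ∀ g g' s s' : Tow.GQ, s ∈ L.U → s' ∈ L.U → c (g * s, g' * s') = c (g, g') := by
  obtain ⟨U, ⟨F, hF, rfl⟩, h⟩ := hc
  obtain ⟨E, hE, hgal, hle⟩ := Fermat.Agent.S55.Bridge.exists_galois_level_ge S F hF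
  have hQ : IsGalois ℚ Qbar := Fermat.Agent.S55.Bridge.isGalois_Qbar
  let L₀ : Level S := ⟨E, hE, (InfiniteGalois.normal_iff_isGalois E).2 hgal⟩
  refine ⟨capSup S L₁ L₀, le_capSup_left S L₁ L₀, fun g g' s s' hs hs' => ?_⟩
  have hU : (capSup S L₁ L₀).U ≤ F.fixingSubgroup := by
    refine le_trans (Level.U_anti (le_capSup_right S L₁ L₀)) ?_
    exact IntermediateField.fixingSubgroup_antitone hle
  exact h g g' s s' (hU hs) (hU hs')

/-! ### the coefficient map `μ_p → ℚ̄_qˣ` -/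

section Coeff

variable (p : ℕ) [Fact p.Prime] (S : Finset Nat.Primes) (ι₀ : ↥(mu p) →+ SU S)
  (hι₀ : ∀ (g : Tow.GQ) (a : ↥(mu p)), ι₀ ((mu p).ρ g a) = g • ι₀ a)

/-- `e_q = emb_q ∘ val ∘ ι₀ : μ_p → ℚ̄_qˣ` -/
def coeffE (q : Nat.Primes) : ↥(mu p) →+ (unitsQpbar q).V :=
  (embQbar q).toAddMonoidHom.comp ((SU.val S).comp ι₀)

lemma coeffE_apply (q : Nat.Primes) (a : ↥(mu p)) :
    coeffE p S ι₀ q a = embQbar q (SU.val S (ι₀ a)) := rfl

include hι₀ in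
lemma coeffE_ρ (q : Nat.Primes) (γ : Tow.GQ) (a : ↥(mu p)) :
    coeffE p S ι₀ q ((mu p).ρ γ a) = embQbar q (unitsQbar.ρ γ (SU.val S (ι₀ a))) := by
  rw [coeffE_apply, hι₀, SU.val_smul]

include hι₀ in
lemma coeffE_ρ_loc (q : Nat.Primes) (d : GQp q) (a : ↥(mu p)) :
    coeffE p S ι₀ q ((mu p).ρ (locQ q d) a) = (unitsQpbar q).ρ d (coeffE p S ι₀ q a) := by
  rw [coeffE_ρ p S ι₀ hι₀, embQbar_equivariant, coeffE_apply]

end Coeff

/-! ### the local trivialisations -/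

section Local

variable (p : ℕ) [Fact p.Prime] (S : Finset Nat.Primes) (ι₀ : ↥(mu p) →+ SU S)
  (hι₀ : ∀ (g : Tow.GQ) (a : ↥(mu p)), ι₀ ((mu p).ρ g a) = g • ι₀ a)

include hι₀ in
lemma exists_local (hLoc : LocalSpec p) (L₁ L : Level S) (hL₁L : L₁ ≤ L)
    (c : ↥((globalLevels S).Z2 (indRep L₁.U (mu p))))
    (hcL : ∀ g g' s s' : Tow.GQ, s ∈ L.U → s' ∈ L.U →
      (c : Tow.GQ × Tow.GQ → (Tow.GQ ⧸ L₁.U) →₀ ↥(mu p)) (g * s, g' * s')
        = (c : Tow.GQ × Tow.GQ → (Tow.GQ ⧸ L₁.U) →₀ ↥(mu p)) (g, g'))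
    (hSha : (globalLevels S).H2π (indRep L₁.U (mu p)) c ∈ Sha2 (hrl S) (indRep L₁.U (mu p)))
    (q : ↥S) :
    ∃ β' : GQp q.1 → (Tow.GQ ⧸ L₁.U) → (unitsQpbar q.1).V,
      (∀ d e, e ∈ L.V q.1 → β' (d * e) = β' d) ∧
      ∀ d d' y, (unitsQpbar q.1).ρ d (β' d' ((locQ q.1 d)⁻¹ • y)) - β' (d * d') y + β' d y
        = coeffE p S ι₀ q.1
            ((c : Tow.GQ × Tow.GQ → (Tow.GQ ⧸ L₁.U) →₀ ↥(mu p)) (locQ q.1 d, locQ q.1 d') y) := by
  have h1 : resH2 (hrl S q) (indRep L₁.U (mu p))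
      ((globalLevels S).H2π (indRep L₁.U (mu p)) c) = 0 :=
    congrFun (LinearMap.mem_ker.1 hSha) q
  rw [resH2_mk, LevelSys.H2π_eq_zero_iff] at h1
  obtain ⟨x, hx, hdx⟩ := h1
  obtain ⟨V, ⟨F, hF, rfl⟩, hxV⟩ := hx
  have hdx' : ∀ d d' : GQp q.1,
      (indRep L₁.U (mu p)).ρ (locQ q.1 d) (x d') - x (d * d') + x d
        = (c : Tow.GQ × Tow.GQ → (Tow.GQ ⧸ L₁.U) →₀ ↥(mu p)) (locQ q.1 d, locQ q.1 d') := by
    intro d d'
    have := congrFun hdx (d, d')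
    rw [d₁₂_hom_apply] at this
    exact this
  refine localInf S hLoc q.1 L₁ L hL₁L
    (fun dd y => coeffE p S ι₀ q.1
      ((c : Tow.GQ × Tow.GQ → (Tow.GQ ⧸ L₁.U) →₀ ↥(mu p)) (locQ q.1 dd.1, locQ q.1 dd.2) y))
    (fun d y => coeffE p S ι₀ q.1 ((x d : (Tow.GQ ⧸ L₁.U) →₀ ↥(mu p)) y)) ?_ ⟨F, hF, ?_⟩ ?_
  · intro d d' e e' he he'
    funext y
    show coeffE p S ι₀ q.1 ((c : Tow.GQ × Tow.GQ → (Tow.GQ ⧸ L₁.U) →₀ ↥(mu p))
        (locQ q.1 (d * e), locQ q.1 (d' * e')) y) = _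
    rw [map_mul, map_mul, hcL _ _ _ _ he he']
  · intro d e he
    funext y
    show coeffE p S ι₀ q.1 ((x (d * e) : (Tow.GQ ⧸ L₁.U) →₀ ↥(mu p)) y) = _
    rw [hxV d e he]
  · intro d d' y
    show (unitsQpbar q.1).ρ d (coeffE p S ι₀ q.1
          ((x d' : (Tow.GQ ⧸ L₁.U) →₀ ↥(mu p)) ((locQ q.1 d)⁻¹ • y)))
        - coeffE p S ι₀ q.1 ((x (d * d') : (Tow.GQ ⧸ L₁.U) →₀ ↥(mu p)) y)
        + coeffE p S ι₀ q.1 ((x d : (Tow.GQ ⧸ L₁.U) →₀ ↥(mu p)) y)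
      = coeffE p S ι₀ q.1
          ((c : Tow.GQ × Tow.GQ → (Tow.GQ ⧸ L₁.U) →₀ ↥(mu p)) (locQ q.1 d, locQ q.1 d') y)
    rw [← hdx' d d', ← coeffE_ρ_loc p S ι₀ hι₀, ← indRep_ρ_apply, ← map_sub, ← map_add]
    rfl

end Local

/-! ### the main theorem -/

/-- **Leaf J2.** -/
theorem j2Adapter (p : ℕ) [Fact p.Prime] (S : Finset Nat.Primes) : J2AdapterSpec p S := by
  classical
  intro hLoc ι₀ hι₀ L₁ hμ c hSha
  -- the cocycle relation and the level of `c`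
  have hcoc : ∀ g h j : Tow.GQ,
      (c : Tow.GQ × Tow.GQ → (Tow.GQ ⧸ L₁.U) →₀ ↥(mu p)) (g * h, j)
        + (c : Tow.GQ × Tow.GQ → (Tow.GQ ⧸ L₁.U) →₀ ↥(mu p)) (g, h)
      = (indRep L₁.U (mu p)).ρ g ((c : Tow.GQ × Tow.GQ → (Tow.GQ ⧸ L₁.U) →₀ ↥(mu p)) (h, j))
        + (c : Tow.GQ × Tow.GQ → (Tow.GQ ⧸ L₁.U) →₀ ↥(mu p)) (g, h * j) :=
    (mem_cocycles₂_iff (A := indRep L₁.U (mu p)) _).1 c.2.1
  obtain ⟨L, hL₁L, hcL⟩ := exists_level_of_isLC₂ S L₁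
    (c : Tow.GQ × Tow.GQ → (Tow.GQ ⧸ L₁.U) →₀ ↥(mu p)) c.2.2
  -- the local trivialisations
  have hloc := exists_local p S ι₀ hι₀ hLoc L₁ L hL₁L c hcL hSha
  choose β' hβ'W hβ' using hloc
  -- the cocycle with `ℚ̄_qˣ`-coefficients
  let ζ : (q : ↥S) → Tow.GQ × Tow.GQ → (Tow.GQ ⧸ L₁.U) → (unitsQpbar q.1).V :=
    fun q gg y => coeffE p S ι₀ q.1
      ((c : Tow.GQ × Tow.GQ → (Tow.GQ ⧸ L₁.U) →₀ ↥(mu p)) gg y)
  have hζW : ∀ (q : ↥S) (g g' w w' : Tow.GQ), w ∈ L.U → w' ∈ L.U →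
      ζ q (g * w, g' * w') = ζ q (g, g') := by
    intro q g g' w w' hw hw'
    funext y
    show coeffE p S ι₀ q.1 _ = coeffE p S ι₀ q.1 _
    rw [hcL g g' w w' hw hw']
  have hζfull : ∀ (q : ↥S) (γ g h : Tow.GQ) (y : Tow.GQ ⧸ L₁.U),
      ζ q (γ * g, h) y + ζ q (γ, g) y
        = coeffE p S ι₀ q.1 ((mu p).ρ γ
            ((c : Tow.GQ × Tow.GQ → (Tow.GQ ⧸ L₁.U) →₀ ↥(mu p)) (g, h) (γ⁻¹ • y)))
          + ζ q (γ, g * h) y := by
    intro q γ g h y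
    have h1 := congrArg (fun F : (Tow.GQ ⧸ L₁.U) →₀ ↥(mu p) => coeffE p S ι₀ q.1 (F y))
      (hcoc γ g h)
    simp only [Finsupp.add_apply, map_add] at h1
    rw [indRep_ρ_apply] at h1
    exact h1
  have hζ : ∀ (q : ↥S) (d : GQp q.1) (γ g : Tow.GQ) (y : Tow.GQ ⧸ L₁.U),
      ζ q (locQ q.1 d * γ, g) y + ζ q (locQ q.1 d, γ) y
        = (unitsQpbar q.1).ρ d (ζ q (γ, g) ((locQ q.1 d)⁻¹ • y)) + ζ q (locQ q.1 d, γ * g) y := by
    intro q d γ g y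
    rw [hζfull q (locQ q.1 d) γ g y, coeffE_ρ_loc p S ι₀ hι₀]
  -- the modified cochains
  let φ : (q : ↥S) → Tow.GQ → Tow.GQ → (Tow.GQ ⧸ L₁.U) → (unitsQpbar q.1).V :=
    fun q => shPhi (locQ q.1) L.U (ζ q) (β' q)
  have hφ1 : ∀ (q : ↥S) (g : Tow.GQ) (d : GQp q.1) (γ : Tow.GQ) (y : Tow.GQ ⧸ L₁.U),
      φ q g (locQ q.1 d * γ) y = (unitsQpbar q.1).ρ d (φ q g γ ((locQ q.1 d)⁻¹ • y)) :=
    fun q g d γ y => shPhi_mul_left (locQ q.1) L.U (unitsQpbar q.1).ρ (ζ q) (β' q)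
      (hζW q) (hζ q) (hβ'W q) (hβ' q) g d γ y
  have hφ2 : ∀ (q : ↥S) (g γ w : Tow.GQ), w ∈ L.U → φ q g (γ * w) = φ q g γ :=
    fun q g γ w hw => shPhi_mul_right (locQ q.1) L.U (ζ q) (β' q) (hζW q) (hβ'W q) g γ w hw
  have hφ3 : ∀ (q : ↥S) (g γ w : Tow.GQ), w ∈ L.U → φ q (g * w) γ = φ q g γ :=
    fun q g γ w hw => shPhi_mul_right' (locQ q.1) L.U (ζ q) (β' q) (hζW q) (hβ'W q) g γ w hw
  have hφ4 : ∀ (q : ↥S) (g h γ : Tow.GQ) (y : Tow.GQ ⧸ L₁.U),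
      φ q h (γ * g) y - φ q (g * h) γ y + φ q g γ y
        = ζ q (γ * g, h) y - ζ q (γ, g * h) y + ζ q (γ, g) y :=
    fun q g h γ y => shPhi_cobdry (locQ q.1) L.U (ζ q) (β' q) g h γ y
  -- the components of `b`
  let bJ : (q : ↥S) → Tow.GQ → (Tow.GQ ⧸ L₁.U) → JJ S q.1 := fun q g x =>
    JJ.mk S q.1 (fun γ => φ q g γ (γ • x))
      (fun d γ => by
        show φ q g (locQ q.1 d * γ) ((locQ q.1 d * γ) • x) = _
        rw [hφ1, mul_smul, inv_smul_smul])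
      ⟨L, fun u hu γ => by
        show φ q g (γ * u) ((γ * u) • x) = φ q g γ (γ • x)
        rw [hφ2 q g γ u hu, mul_smul, smul_eq_of_mem_U hL₁L hu]⟩
  have hbJ : ∀ (q : ↥S) (g : Tow.GQ) (x : Tow.GQ ⧸ L₁.U) (γ : Tow.GQ),
      JJ.ev S q.1 γ (bJ q g x) = φ q g γ (γ • x) := fun q g x γ => rfl
  let b : Tow.GQ → IndM L₁.U (JJS S) := fun g =>
    IndM.ofF L₁.U (Finsupp.equivFunOnFinite.symm (fun x => (fun q => bJ q g x : JJS S)))
  have hb : ∀ (g : Tow.GQ) (x : Tow.GQ ⧸ L₁.U) (q : ↥S),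
      JJS.proj S q (IndM.toF L₁.U (b g) x) = bJ q g x := fun g x q => rfl
  refine ⟨b, ⟨L.U, Level.U_mem_globalLevels S L, fun g s hs => ?_⟩, fun g h => ?_⟩
  · -- level-constancy
    apply Finsupp.ext
    intro x
    apply JJS.ext
    intro q
    show bJ q (g * s) x = bJ q g x
    apply JJ.ext
    intro γ
    rw [hbJ, hbJ, hφ3 q g γ s hs]
  · -- the coboundary identity
    apply Finsupp.ext
    intro x
    apply JJS.ext
    intro q
    apply JJ.ext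
    intro γ
    have hLHS : JJ.ev S q.1 γ (JJS.proj S q (IndM.toF L₁.U
        (IndM.map L₁.U (iEJ S) (IndM.map L₁.U ι₀ (IndM.ofF L₁.U
          ((c : Tow.GQ × Tow.GQ → (Tow.GQ ⧸ L₁.U) →₀ ↥(mu p)) (g, h))))) x))
        = embQbar q.1 (unitsQbar.ρ γ (SU.val S (ι₀
            ((c : Tow.GQ × Tow.GQ → (Tow.GQ ⧸ L₁.U) →₀ ↥(mu p)) (g, h) x)))) := rfl
    have hRHS : JJ.ev S q.1 γ (JJS.proj S q (IndM.toF L₁.U (g • b h - b (g * h) + b g) x))
        = φ q h (γ * g) (γ • x) - φ q (g * h) γ (γ • x) + φ q g γ (γ • x) := by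
      rw [map_add, map_sub]
      show JJ.ev S q.1 γ (JJS.proj S q (IndM.toF L₁.U (g • b h) x
          - IndM.toF L₁.U (b (g * h)) x + IndM.toF L₁.U (b g) x)) = _
      rw [indM_smul_apply, map_add, map_sub, map_add, map_sub, JJS.proj_smul, JJ.ev_smul,
        hb, hb, hb, hbJ, hbJ, hbJ, mul_smul, smul_inv_smul]
    show JJ.ev S q.1 γ (JJS.proj S q (IndM.toF L₁.U
        (IndM.map L₁.U (iEJ S) (IndM.map L₁.U ι₀ (IndM.ofF L₁.U
          ((c : Tow.GQ × Tow.GQ → (Tow.GQ ⧸ L₁.U) →₀ ↥(mu p)) (g, h))))) x))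
      = JJ.ev S q.1 γ (JJS.proj S q (IndM.toF L₁.U (g • b h - b (g * h) + b g) x))
    rw [hLHS, hRHS, hφ4]
    have h1 := hζfull q γ g h (γ • x)
    rw [inv_smul_smul, coeffE_ρ p S ι₀ hι₀] at h1
    linear_combination (norm := abel) -h1

end Fermat.Agent.S55.Cap.J2H164
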